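import Fermat.Agent.Mazur.Large.Line
import Fermat.Agent.Mazur.Large.Real
import Mathlib.FieldTheory.Minpoly.IsIntegrallyClosed

/-!
# A cyclotomic line of the Frey curve in the identity component everywhere is impossible

For a root `e ∈ {0, -b^p/4}` of the 2-division polynomial the number `1/(e - x_T)` is an algebraic
integer all of whose conjugates are real of absolute value less than `1`.
-/

set_option autoImplicit false

namespace Fermat.Agent.Mazur.Large

open WeierstrassCurve Fermat.Agent.Arith Fermat.Agent.EC.AtP Fermat.Agent.EC.Reduction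
open scoped WeierstrassCurve.Affine Pointwise

variable (P : FreyPackage)

/-- `b ^ p = 4 β` with `β` a root of the two-division polynomial up to sign. -/
theorem exists_quarter : ∃ β : ℤ, P.b ^ P.p = 4 * β ∧ 8 ≤ |β| ∧ (2 : ℤ) ∣ β ∧
    4 * (-β) ^ 3 + (1 + 4 * P.freyCurveInt.a₂) * (-β) ^ 2 + 4 * P.freyCurveInt.a₄ * (-β) = 0 := by
  obtain ⟨k, hk⟩ := Frey.two_pow_dvd_pow_b P
  refine ⟨8 * k, by rw [hk]; ring, ?_, ⟨4 * k, by ring⟩, ?_⟩
  · have hk0 : k ≠ 0 := by
      rintro rfl
      exact P.hb0 ((pow_eq_zero_iff P.hp0).mp (by rw [hk, mul_zero]))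
    rw [abs_mul, abs_of_nonneg (by norm_num : (0 : ℤ) ≤ 8)]
    have := abs_pos.mpr hk0
    omega
  · have h2 := Frey.four_mul_a₂ P
    have h4 := Frey.sixteen_mul_a₄ P
    have h4' : 4 * P.freyCurveInt.a₄ = -(P.a ^ P.p) * (8 * k) := by
      apply mul_left_cancel₀ (show (4 : ℤ) ≠ 0 by norm_num)
      rw [hk] at h4
      linear_combination h4
    rw [hk] at h2
    rw [h4']
    linear_combination (8 * k) ^ 2 * h2

variable {P}

/-- If `T` has nonsingular reduction at every place then `x_T - e` is a unit or nonintegral. -/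
theorem sub_root_notMem_nonunits {x y : QBar} {h : (freyWL P).Nonsingular x y} {m : ℕ} (hm : Odd m)
    (hmT : m • (Affine.Point.some x y h : PointQBar P.freyCurveInt) = 0)
    (hE0 : ∀ q : ℕ, q.Prime → ∀ A : ValuationSubring QBar, A.LiesOverPrime q →
      InE0 A (redCurve P.freyCurveInt A) (Affine.Point.some x y h : PointQBar P.freyCurveInt))
    {e : ℤ} (he2 : (2 : ℤ) ∣ e)
    (he : 4 * e ^ 3 + (1 + 4 * P.freyCurveInt.a₂) * e ^ 2 + 4 * P.freyCurveInt.a₄ * e = 0)
    {q : ℕ} (hq : q.Prime) {A : ValuationSubring QBar} (hA : A.LiesOverPrime q) :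
    x - e ∉ A.nonunits := by
  classical
  intro hz
  obtain ⟨h1, h3, h6, h2, h4⟩ := freyQBar_coeffs (P := P)
  have hr := reducesTo_qbar (W := P.freyCurveInt) A
  have hxA : x ∈ A := by simpa using add_mem (mem_of_mem_nonunits hz) (intCast_mem A e)
  have hyA : y ∈ A := hr.y_mem h.1 hxA
  have hns : (redCurve P.freyCurveInt A).Nonsingular (res A x) (res A y) :=
    ((inE0_some h).mp (hE0 q hq A hA)).resolve_left (not_not_intro hxA)
  have hxe : res A x = res A (e : QBar) :=
    sub_eq_zero.mp (by rw [← res_sub hxA (intCast_mem A e), res_eq_zero hz])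
  by_cases hq2 : q = 2
  · subst hq2
    obtain ⟨v3, v4, v6⟩ := frey_red_coeffs_two (P := P) hA
    have hx0 : res A x = 0 := by
      rw [hxe]; exact res_eq_zero ((intCast_mem_nonunits_iff hA hq e).mpr he2)
    rw [hx0] at hns
    obtain ⟨hEq, hsing⟩ := (Affine.nonsingular_iff _ _).mp hns
    rw [Affine.equation_iff, v3, v6] at hEq
    have hy0 : res A y = 0 := (pow_eq_zero_iff two_ne_zero).mp (by linear_combination hEq)
    rw [hy0, v4, v3] at hsing
    simp at hsing
  · have h2A : (2 : QBar)⁻¹ ∈ A := by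
      have : ((2 : ℕ) : QBar) ∉ A.nonunits := by
        rw [natCast_mem_nonunits_iff hA hq]
        exact fun hd => hq2 ((Nat.prime_dvd_prime_iff_eq hq Nat.prime_two).mp hd)
      simpa using ((notMem_nonunits_iff (natCast_mem A 2)).mp this).2
    have he' : 4 * (e : QBar) ^ 3 + (1 + 4 * (P.freyCurveInt.a₂ : QBar)) * (e : QBar) ^ 2
        + 4 * (P.freyCurveInt.a₄ : QBar) * e = 0 := by
      exact_mod_cast congrArg (Int.cast : ℤ → QBar) he
    have heq : y ^ 2 + x * y =
        x ^ 3 + (P.freyCurveInt.a₂ : QBar) * x ^ 2 + (P.freyCurveInt.a₄ : QBar) * x := by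
      have := (Affine.equation_iff _ _).mp h.1
      rw [h1, h2, h3, h4, h6] at this
      linear_combination this
    have hη : 2 * y + x ∈ A.nonunits := by
      have hηA : 2 * y + x ∈ A := add_mem (mul_mem (natCast_mem A 2) hyA) hxA
      have hsq : (2 * y + x) ^ 2 ∈ A.nonunits := by
        rw [show (2 * y + x) ^ 2 = (x - e) * (4 * x ^ 2
            + (4 * e + 1 + 4 * (P.freyCurveInt.a₂ : QBar)) * x
            + (4 * (e : QBar) ^ 2 + (1 + 4 * (P.freyCurveInt.a₂ : QBar)) * e
              + 4 * (P.freyCurveInt.a₄ : QBar))) by linear_combination 4 * heq + he']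
        refine nonunits_mul_right hz ?_
        have h4A : (4 : QBar) ∈ A := natCast_mem A 4
        exact add_mem (add_mem (mul_mem h4A (pow_mem hxA 2))
          (mul_mem (add_mem (add_mem (mul_mem h4A (intCast_mem A e)) (one_mem A))
            (mul_mem h4A (intCast_mem A _))) hxA))
          (add_mem (add_mem (mul_mem h4A (pow_mem (intCast_mem A e) 2))
            (mul_mem (add_mem (one_mem A) (mul_mem h4A (intCast_mem A _))) (intCast_mem A e)))
            (mul_mem h4A (intCast_mem A _)))
      rw [← res_eq_zero_iff hηA]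
      refine (pow_eq_zero_iff two_ne_zero).mp ?_
      rw [← res_pow hηA, res_eq_zero hsq]
    have ht : (-(e : QBar) / 2) ∈ A := by
      rw [div_eq_mul_inv]; exact mul_mem (neg_mem (intCast_mem A e)) h2A
    have hye : res A y = res A (-(e : QBar) / 2) := by
      have hd : y - (-(e : QBar) / 2) ∈ A.nonunits := by
        rw [show y - (-(e : QBar) / 2) = ((2 * y + x) - (x - e)) * 2⁻¹ by ring]
        exact nonunits_mul_right (nonunits_sub hη hz) h2A
      exact sub_eq_zero.mp (by rw [← res_sub hyA ht, res_eq_zero hd])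
    have hT2 : (freyWL P).Nonsingular (e : QBar) (-(e : QBar) / 2) := by
      refine (Affine.equation_iff_nonsingular.mp ?_)
      rw [Affine.equation_iff, h1, h2, h3, h4, h6]
      linear_combination (-1 / 4 : QBar) * he'
    set T : PointQBar P.freyCurveInt := Affine.Point.some x y h with hT
    set T2 : PointQBar P.freyCurveInt :=
      Affine.Point.some (e : QBar) (-(e : QBar) / 2) hT2 with hT2'
    have hT22 : T2 + T2 = 0 := Affine.Point.add_self_of_Y_eq (by
      rw [Affine.negY, h1, h3]; ring)
    have hns2 : (redCurve P.freyCurveInt A).Nonsingular (res A (e : QBar))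
        (res A (-(e : QBar) / 2)) := by rw [← hxe, ← hye]; exact hns
    have hmem := hr.sub_mem_E1 (hE0 q hq A hA)
      ((inE0_some hT2).mpr (Or.inr hns2) : InE0 A (redCurve P.freyCurveInt A) T2) (by
        rw [redFun_some h hxA hns, redFun_some hT2 (intCast_mem A e) hns2]
        simp only [hxe, hye])
    have hsm := hr.E1.nsmul_mem hmem m
    obtain ⟨k, hk⟩ := hm
    have hT2k : m • T2 = T2 := by
      rw [hk, add_nsmul, one_nsmul, mul_comm, mul_nsmul']
      rw [two_nsmul, hT22, nsmul_zero, zero_add]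
    rw [nsmul_sub, hmT, hT2k, zero_sub] at hsm
    have := hr.E1.neg_mem hsm
    rw [neg_neg] at this
    exact (hr.mem_E1.mp this) (intCast_mem A e)

/-- A valuation ring of `QBar` with a nonzero nonunit lies over a prime. -/
theorem exists_prime_of_mem_nonunits {A : ValuationSubring QBar} {w : QBar} (hw0 : w ≠ 0)
    (hw : w ∈ A.nonunits) : ∃ q : ℕ, q.Prime ∧ A.LiesOverPrime q := by
  have halg : IsAlgebraic ℤ w :=
    (IsFractionRing.isAlgebraic_iff ℤ ℚ QBar).mpr (Algebra.IsAlgebraic.isAlgebraic w)
  obtain ⟨g, hg0, hgw⟩ := halg.exists_nonzero_coeff_and_aeval_eq_zero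
    (mem_nonZeroDivisors_of_ne_zero hw0)
  have hwA : w ∈ A := mem_of_mem_nonunits hw
  have hn : ((g.coeff 0 : ℤ) : QBar) ∈ A.nonunits := by
    have hdiv := congrArg (Polynomial.aeval w) (Polynomial.X_mul_divX_add g)
    rw [hgw, map_add, map_mul, Polynomial.aeval_X, Polynomial.aeval_C,
      eq_intCast] at hdiv
    rw [eq_neg_of_add_eq_zero_right hdiv]
    refine nonunits_neg (nonunits_mul_right hw ?_)
    rw [Polynomial.aeval_eq_sum_range]
    refine sum_mem fun i _ => ?_
    rw [zsmul_eq_mul]
    exact mul_mem (intCast_mem A _) (pow_mem hwA i)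
  have hnat : ∀ m : ℕ, m ≠ 0 → (m : QBar) ∈ A.nonunits → ∃ q : ℕ, q.Prime ∧ A.LiesOverPrime q := by
    intro m
    induction m using Nat.strong_induction_on with
    | _ m ih =>
      intro hm0 hm
      have hm1 : m ≠ 1 := fun h1 => one_notMem_nonunits (A := A) (by simpa [h1] using hm)
      obtain ⟨q, hq, k, rfl⟩ := Nat.exists_prime_and_dvd hm1
      by_cases hqA : (q : QBar) ∈ A.nonunits
      · exact ⟨q, hq, hqA⟩
      · have hk0 : k ≠ 0 := right_ne_zero_of_mul hm0
        refine ih k ?_ hk0 ?_
        · exact lt_mul_left (Nat.pos_of_ne_zero hk0) hq.one_lt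
        · have hinv := ((notMem_nonunits_iff (natCast_mem A q)).mp hqA).2
          have := nonunits_mul_left hinv hm
          rwa [Nat.cast_mul, inv_mul_cancel_left₀ (Nat.cast_ne_zero.mpr hq.ne_zero)] at this
  refine hnat (g.coeff 0).natAbs (Int.natAbs_ne_zero.mpr hg0) ?_
  rcases Int.natAbs_eq (g.coeff 0) with h | h <;> rw [h] at hn
  · simpa using hn
  · simpa using nonunits_neg hn

variable {T : PointQBar P.freyCurveInt}

/-- The endgame: a cyclotomic line with nonsingular reduction at every place cannot exist. -/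
theorem false_of_inE0_everywhere [Fact (Nat.Prime P.p)]
    (hL : IsCyclotomicLine P.freyCurveInt P.p T)
    (hE0 : ∀ q : ℕ, q.Prime → ∀ A : ValuationSubring QBar, A.LiesOverPrime q →
      InE0 A (redCurve P.freyCurveInt A) T) : False := by
  classical
  obtain ⟨β, -, hβ8, hβ2, hβroot⟩ := exists_quarter P
  set ι : QBar →ₐ[ℚ] ℂ := IsAlgClosed.lift with hι
  obtain ⟨c, hc⟩ := exists_conj ι
  have hcyc := cyc_conj P.p hc
  set e : ℤ := max 0 (-β) with he_def
  have he0 : (4 : ℤ) * 0 ^ 3 + (1 + 4 * P.freyCurveInt.a₂) * 0 ^ 2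
      + 4 * P.freyCurveInt.a₄ * 0 = 0 := by ring
  have he2 : (2 : ℤ) ∣ e := by
    rcases max_choice 0 (-β) with hh | hh <;> rw [he_def, hh]
    · exact dvd_zero _
    · exact dvd_neg.mpr hβ2
  have heroot : 4 * e ^ 3 + (1 + 4 * P.freyCurveInt.a₂) * e ^ 2
      + 4 * P.freyCurveInt.a₄ * e = 0 := by
    rcases max_choice 0 (-β) with hh | hh <;> rw [he_def, hh]
    · exact he0
    · exact hβroot
  match hT : T, hL.ne_zero with
  | .zero, hne => exact hne rfl
  | .some x y h, _ =>
    have hmT := hL.nsmul_eq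
    have hconj : ∀ σ : GQ, (ι (σ x)).im = 0 ∧ (ι (σ x)).re + 8 ≤ (e : ℝ) := by
      intro σ
      obtain ⟨h', eσ⟩ := smul_some (σ := σ) h
      have hpσ := hL.nsmul_nsmul_eq ((cyc P.p σ : (ZMod P.p)ˣ) : ZMod P.p).val
      have hnegσ := hL.conj_smul hcyc ((cyc P.p σ : (ZMod P.p)ˣ) : ZMod P.p).val
      rw [← hL.smul_eq, eσ] at hpσ hnegσ
      obtain ⟨him, hle0⟩ := re_le_root hc P.hp_odd hpσ hnegσ (e := 0) he0
      obtain ⟨-, hleβ⟩ := re_le_root hc P.hp_odd hpσ hnegσ hβroot
      refine ⟨him, ?_⟩
      push_cast at hle0 hleβ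
      rcases le_total 0 (-β) with hs | hs
      · rw [he_def, max_eq_right hs]
        rw [abs_of_nonpos (by omega)] at hβ8
        have : (8 : ℝ) ≤ -(β : ℝ) := by exact_mod_cast hβ8
        push_cast
        linarith
      · rw [he_def, max_eq_left hs]
        rw [abs_of_nonneg (by omega)] at hβ8
        have : (8 : ℝ) ≤ (β : ℝ) := by exact_mod_cast hβ8
        push_cast
        linarith
    have hne : (e : QBar) - x ≠ 0 := by
      intro h0
      obtain ⟨-, hre⟩ := hconj 1
      rw [AlgEquiv.one_apply, ← sub_eq_zero.mp h0, map_intCast, Complex.intCast_re] at hre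
      linarith
    set z : QBar := ((e : QBar) - x)⁻¹ with hz
    have hzint : IsIntegral ℤ z := by
      refine isIntegral_of_forall_mem fun A => ?_
      by_cases hxe : ((e : QBar) - x) ∈ A
      · by_cases htriv : ∃ q : ℕ, q.Prime ∧ A.LiesOverPrime q
        · obtain ⟨q, hq, hA⟩ := htriv
          have hnu : ((e : QBar) - x) ∉ A.nonunits := by
            intro hn
            refine sub_root_notMem_nonunits (e := e) P.hp_odd hmT hE0 he2 heroot hq hA ?_
            rw [show x - (e : QBar) = -((e : QBar) - x) by ring]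
            exact nonunits_neg hn
          exact ((notMem_nonunits_iff hxe).mp hnu).2
        · by_cases hn : ((e : QBar) - x) ∈ A.nonunits
          · exact absurd (exists_prime_of_mem_nonunits hne hn) htriv
          · exact ((notMem_nonunits_iff hxe).mp hn).2
      · exact (A.mem_or_inv_mem _).resolve_left hxe
    set g := minpoly ℚ z with hg
    have hsplit : (g.map (algebraMap ℚ QBar)).Splits := IsAlgClosed.splits _
    have hmonic : g.Monic := minpoly.monic (Algebra.IsIntegral.isIntegral z)
    have hc0 := Polynomial.Splits.coeff_zero_eq_prod_roots_of_monic hsplit (hmonic.map _)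
    have hgZ : g = (minpoly ℤ z).map (algebraMap ℤ ℚ) :=
      minpoly.isIntegrallyClosed_eq_field_fractions' ℚ hzint
    have hroot : ∀ w ∈ (g.map (algebraMap ℚ QBar)).roots, ‖ι w‖ < 1 := by
      intro w hw
      rw [Polynomial.mem_roots (hmonic.map _).ne_zero, Polynomial.IsRoot, Polynomial.eval_map,
        ← Polynomial.aeval_def] at hw
      obtain ⟨σ, hσ⟩ := minpoly.exists_algEquiv_of_root' (Algebra.IsAlgebraic.isAlgebraic z) hw
      rw [← hσ, hz, map_inv₀, map_sub, map_intCast, map_inv₀, map_sub, map_intCast, norm_inv]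
      obtain ⟨him, hre⟩ := hconj σ
      have h8 : (8 : ℝ) ≤ ‖(e : ℂ) - ι (σ x)‖ := by
        refine le_trans ?_ (Complex.abs_re_le_norm _)
        rw [Complex.sub_re, Complex.intCast_re]
        exact le_trans (by linarith) (le_abs_self _)
      exact inv_lt_one_of_one_lt₀ (by linarith)
    have hne0 : g.coeff 0 ≠ 0 := minpoly.coeff_zero_ne_zero (Algebra.IsIntegral.isIntegral z)
      (inv_ne_zero hne)
    set r : ℤ := (minpoly ℤ z).coeff 0 with hr
    have hr0 : r ≠ 0 := by
      intro h0; apply hne0; rw [hgZ, Polynomial.coeff_map, ← hr, h0, map_zero]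
    have habs : (1 : ℝ) ≤ ‖ι ((g.map (algebraMap ℚ QBar)).coeff 0)‖ := by
      rw [Polynomial.coeff_map, hgZ, Polynomial.coeff_map, ← hr, eq_intCast, map_intCast,
        map_intCast, Complex.norm_intCast]
      exact_mod_cast Int.one_le_abs hr0
    rw [hc0, map_mul, map_pow, map_neg, map_one, norm_mul, norm_pow, norm_neg, norm_one, one_pow,
      one_mul, map_multiset_prod] at habs
    have hprod : ∀ s : Multiset QBar, (∀ w ∈ s, ‖ι w‖ < 1) → s ≠ 0 →
        ‖(s.map ι).prod‖ < 1 := by
      intro s
      induction s using Multiset.induction with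
      | empty => exact fun _ h => absurd rfl h
      | cons a s ih =>
        intro hs _
        rw [Multiset.map_cons, Multiset.prod_cons, norm_mul]
        have ha := hs a (Multiset.mem_cons_self a s)
        by_cases hs0 : s = 0
        · subst hs0; simpa using ha
        · exact mul_lt_one_of_nonneg_of_lt_one_left (norm_nonneg _) ha
            (ih (fun w hw => hs w (Multiset.mem_cons_of_mem hw)) hs0).le
    refine absurd habs (not_le.mpr (hprod _ hroot ?_))
    intro h0
    have := hsplit.natDegree_eq_card_roots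
    rw [h0, Multiset.card_zero, Polynomial.natDegree_map] at this
    exact (minpoly.natDegree_pos (Algebra.IsIntegral.isIntegral z)).ne' this

end Fermat.Agent.Mazur.Large
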