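import Fermat.Agent.Mazur.Large.Line
import Fermat.Agent.EC.AtP.FreyTwoAdic
import Fermat.Agent.EC.Multiplicative.Int

/-!
# The cyclotomic line at `p` and at the small primes
-/

set_option autoImplicit false

namespace Fermat.Agent.Mazur.Large

open WeierstrassCurve Fermat.Agent.Arith Fermat.Agent.EC.AtP Fermat.Agent.EC.Reduction
open scoped WeierstrassCurve.Affine Pointwise

variable {W : WeierstrassCurve ℤ} [(W.map (Int.castRingHom ℚ)).IsElliptic] {p : ℕ} [Fact p.Prime]
  {T : PointQBar W}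

theorem nsmul_smul (σ : GQ) (k : ℕ) (R : PointQBar W) : σ • (k • R) = k • (σ • R) :=
  map_nsmul (Affine.Point.map (σ : GQ).toAlgHom) k R

theorem eq_one_nsmul {G : Type*} [AddCommGroup G] {x : G} {m : ℕ} (hx : p • x = 0)
    (hm : (m : ZMod p) = 1) : m • x = x := by
  have hp : p.Prime := Fact.out
  have h1 : m % p = 1 := by
    have : (m : ZMod p) = ((1 : ℕ) : ZMod p) := by rw [hm, Nat.cast_one]
    rw [ZMod.natCast_eq_natCast_iff', Nat.mod_eq_of_lt hp.one_lt] at this
    exact this
  rw [nsmul_eq_mod_nsmul m hx, h1, one_nsmul]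

/-- At a place over `p` the line lies in the identity component, as soon as inertia moves points
within their components. -/
theorem inE0_at_p (h : IsCyclotomicLine W p T) (hp2 : 2 < p)
    (hcomp : InertiaPreservesComponent W) {A : ValuationSubring QBar} (hA : A.LiesOverPrime p) :
    InE0 A (redCurve W A) T := by
  classical
  have hp : p.Prime := Fact.out
  obtain ⟨σ, hσ, hne⟩ := exists_inertia_cyc_ne_one p hp2 hA
  have hE := (reducesTo_qbar (W := W) A).mem_E0.mpr (hcomp p hp A hA σ hσ T)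
  set χ : ZMod p := ((cyc p σ : (ZMod p)ˣ) : ZMod p) with hχ
  set e : ℕ := χ.val + (p - 1) with he
  have hsub : σ • T - T = e • T := by
    rw [he, add_nsmul, h.smul_eq, ← hχ, sub_eq_add_neg]
    congr 1
    refine (eq_neg_of_add_eq_zero_left ?_).symm
    rw [← succ_nsmul, Nat.sub_add_cancel hp.one_lt.le, h.nsmul_eq]
  have hχ1 : χ - 1 ≠ 0 := by
    refine sub_ne_zero.mpr fun h1 => hne (Units.ext ?_)
    rw [Units.val_one]; exact h1
  have he' : (e : ZMod p) = χ - 1 := by
    rw [he, Nat.cast_add, ZMod.natCast_zmod_val, Nat.cast_sub hp.one_lt.le, ZMod.natCast_self,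
      Nat.cast_one, zero_sub, sub_eq_add_neg]
  rw [hsub] at hE
  have hmul := (reducesTo_qbar (W := W) A).E0.nsmul_mem hE ((χ - 1)⁻¹).val
  have heq : ((χ - 1)⁻¹).val • (e • T) = T := by
    rw [← mul_nsmul]
    refine eq_one_nsmul (p := p) h.nsmul_eq ?_
    rw [Nat.cast_mul, he', ZMod.natCast_zmod_val, mul_inv_cancel₀ hχ1]
  rw [heq] at hmul
  exact (reducesTo_qbar (W := W) A).mem_E0.mp hmul

variable {A : ValuationSubring QBar} {q : ℕ}

/-- A nonzero `p`-torsion point with nonsingular reduction at a small prime `q` is not fixed by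
Frobenius: the reduced curve has at most `q ^ 2 < p - 1` rational affine points. -/
theorem smul_ne_self_of_small (hA : A.LiesOverPrime q) (hq : q.Prime) (hqp : q ≠ p)
    (hsmall : q ^ 2 + 1 < p) {σ : GQ} (hσ : A.IsFrobeniusAt σ q) {R : PointQBar W}
    (hR0 : R ≠ 0) (hpR : p • R = 0) (hRE : InE0 A (redCurve W A) R) : σ • R ≠ R := by
  classical
  intro hfix
  have hp : p.Prime := Fact.out
  have h := reducesTo_qbar (W := W) A
  obtain ⟨hs, hf⟩ := res_frobenius hσ
  set S : Finset (IsLocalRing.ResidueField A) :=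
    (Polynomial.X ^ q - Polynomial.X : Polynomial (IsLocalRing.ResidueField A)).roots.toFinset
    with hS
  have hS' : S.card ≤ q := (Multiset.toFinset_card_le _).trans
    ((Polynomial.card_roots' _).trans (FiniteField.X_pow_card_sub_X_natDegree_eq _ hq.one_lt).le)
  have hcoord : ∀ k : Fin (p - 1), ∃ c : IsLocalRing.ResidueField A × IsLocalRing.ResidueField A,
      c ∈ S ×ˢ S ∧ ∃ (x y : QBar) (hn : _) ,
        (k.1 + 1) • R = Affine.Point.some x y hn ∧ x ∈ A ∧
        (redCurve W A).Nonsingular (res A x) (res A y) ∧ c = (res A x, res A y) := by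
    intro k
    have hne : (k.1 + 1) • R ≠ 0 :=
      nsmul_ne_zero_of_prime hp hpR hR0 (Nat.succ_pos _) (by have := k.2; omega)
    have hk : InE0 A (redCurve W A) ((k.1 + 1) • R) :=
      h.mem_E0.mp (h.E0.nsmul_mem (h.mem_E0.mpr hRE) _)
    match he : (k.1 + 1) • R with
    | .zero => exact absurd he hne
    | .some x y hn =>
      have hx : x ∈ A := by
        by_contra hx
        refine hne (e1TorsionFree p hp q hq hqp A hA _ ?_ ?_)
        · rw [he]; exact hx
        · rw [← mul_nsmul, mul_comm, mul_nsmul, hpR, nsmul_zero]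
      have hns : (redCurve W A).Nonsingular (res A x) (res A y) :=
        ((inE0_some hn).mp (he ▸ hk)).resolve_left (not_not_intro hx)
      have hfix' : σ • ((k.1 + 1) • R) = (k.1 + 1) • R := by rw [nsmul_smul, hfix]
      rw [he] at hfix'
      obtain ⟨h', e⟩ := smul_some (σ := σ) hn
      obtain ⟨ex, ey⟩ := (Affine.Point.some.injEq ..).mp (e.symm.trans hfix')
      have hmem : ∀ z ∈ A, σ z = z → res A z ∈ S := by
        intro z hz hzfix
        rw [hS, Multiset.mem_toFinset, Polynomial.mem_roots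
          (FiniteField.X_pow_card_sub_X_ne_zero _ hq.one_lt)]
        have := hf z hz
        rw [hzfix] at this
        simp [Polynomial.IsRoot, ← this]
      have hy : y ∈ A := h.y_mem hn.1 hx
      exact ⟨(res A x, res A y), Finset.mem_product.mpr ⟨hmem x hx ex, hmem y hy ey⟩,
        x, y, hn, rfl, hx, hns, rfl⟩
  choose f hfS hfc using hcoord
  have hinj : Function.Injective f := by
    intro i j hij
    obtain ⟨x, y, hn, ei, hx, hns, hi⟩ := hfc i
    obtain ⟨x', y', hn', ej, hx', hns', hj⟩ := hfc j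
    rw [hi, hj, Prod.mk.injEq] at hij
    have hmemE : ∀ m : ℕ, InE0 A (redCurve W A) (m • R) := fun m =>
      h.mem_E0.mp (h.E0.nsmul_mem (h.mem_E0.mpr hRE) m)
    have heq : redFun A (redCurve W A) ((i.1 + 1) • R) = redFun A (redCurve W A) ((j.1 + 1) • R) := by
      rw [ei, ej, redFun_some hn hx hns, redFun_some hn' hx' hns']
      simp only [hij.1, hij.2]
    have hz := e1TorsionFree p hp q hq hqp A hA _
      (h.mem_E1.mp (h.sub_mem_E1 (hmemE _) (hmemE _) heq))
      (by rw [nsmul_sub, ← mul_nsmul, ← mul_nsmul, mul_comm, mul_nsmul, hpR, nsmul_zero,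
        mul_comm, mul_nsmul, hpR, nsmul_zero, sub_zero])
    rw [sub_eq_zero] at hz
    have hord := addOrderOf_eq_prime hpR hR0
    have hmod := (nsmul_eq_nsmul_iff_modEq).mp hz
    rw [hord] at hmod
    have hi2 := i.2
    have hj2 := j.2
    have := Nat.ModEq.eq_of_lt_of_lt hmod (by omega) (by omega)
    exact Fin.ext (by omega)
  have hcard := Finset.card_le_card_of_injOn (s := (Finset.univ : Finset (Fin (p - 1)))) f
    (fun k _ => hfS k) hinj.injOn
  rw [Finset.card_univ, Fintype.card_fin, Finset.card_product] at hcard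
  have : S.card * S.card ≤ q ^ 2 := by rw [sq]; exact Nat.mul_le_mul hS' hS'
  omega

/-- At a multiplicative place some nonzero `p`-torsion point has nonsingular reduction. -/
theorem exists_inE0_torsion (hA : A.LiesOverPrime q) (hq : q.Prime) (hΔ0 : W.Δ ≠ 0)
    (hΔ : (q : ℤ) ∣ W.Δ) (hc₄ : ¬ (q : ℤ) ∣ W.c₄) (hp2 : p ≠ 2)
    {P Q : PointQBar W} (hP : p • P = 0) (hQ : p • Q = 0)
    (hind : ∀ i j : ℕ, i • P = j • Q → p ∣ i ∧ p ∣ j) :
    ∃ R : PointQBar W, R ≠ 0 ∧ p • R = 0 ∧ InE0 A (redCurve W A) R := by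
  classical
  have hp : p.Prime := Fact.out
  have hodd : Odd p := hp.odd_of_ne_two hp2
  obtain ⟨N, -⟩ := EC.Multiplicative.exists_node_int hA hq hΔ0 hΔ hc₄
  have hP0 : P ≠ 0 := fun h0 => hp.one_lt.ne'
    (Nat.dvd_one.mp (hind 1 0 (by rw [h0, nsmul_zero, zero_nsmul])).1)
  by_cases hPE : InE0 A (redCurve W A) P
  · exact ⟨P, hP0, hP, hPE⟩
  have hQ0 : Q ≠ 0 := fun h0 => hp.one_lt.ne'
    (Nat.dvd_one.mp (hind 0 1 (by rw [h0, nsmul_zero, zero_nsmul])).2)
  by_cases hQE : InE0 A (redCurve W A) Q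
  · exact ⟨Q, hQ0, hQ, hQE⟩
  match P, Q with
  | .zero, _ => exact absurd rfl hP0
  | _, .zero => exact absurd rfl hQ0
  | .some x y hn, .some x' y' hn' =>
    have hPn := (N.not_inE0_iff _).mp hPE
    have hQn := (N.not_inE0_iff _).mp hQE
    obtain ⟨-, i, hi0, hip, hi⟩ := N.valuation_pow_of_nsmul hodd hPn hP
    obtain ⟨-, j, hj0, hjp, hj⟩ := N.valuation_pow_of_nsmul hodd hQn hQ
    obtain ⟨hbigP, -⟩ := N.valuation_pow_of_nsmul hodd hPn hP
    obtain ⟨hbigQ, -⟩ := N.valuation_pow_of_nsmul hodd hQn hQ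
    have hvP : (A.valuation (x - N.r) ^ 2) ≠ 0 := (lt_of_le_of_lt zero_le hbigP).ne'
    have hvQ : (A.valuation (x' - N.r) ^ 2) ≠ 0 := (lt_of_le_of_lt zero_le hbigQ).ne'
    have hcompP : N.comp (Affine.Point.some x y hn) = N.cls (A.valuation (x - N.r) ^ 2) ∨
        N.comp (Affine.Point.some x y hn) = -N.cls (A.valuation (x - N.r) ^ 2) := by
      rw [N.comp_of_atNode hPn, EC.Multiplicative.compVal, if_pos hbigP]
      split_ifs
      · exact Or.inl rfl
      · refine Or.inr (eq_neg_of_add_eq_zero_left ?_)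
        rw [← N.cls_mul (inv_ne_zero hvP) hvP, inv_mul_cancel₀ hvP,
          N.cls_eq_zero_iff one_ne_zero]
        exact EC.Multiplicative.InH.one
    have hcompQ : N.comp (Affine.Point.some x' y' hn') = N.cls (A.valuation (x' - N.r) ^ 2) ∨
        N.comp (Affine.Point.some x' y' hn') = -N.cls (A.valuation (x' - N.r) ^ 2) := by
      rw [N.comp_of_atNode hQn, EC.Multiplicative.compVal, if_pos hbigQ]
      split_ifs
      · exact Or.inl rfl
      · refine Or.inr (eq_neg_of_add_eq_zero_left ?_)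
        rw [← N.cls_mul (inv_ne_zero hvQ) hvQ, inv_mul_cancel₀ hvQ,
          N.cls_eq_zero_iff one_ne_zero]
        exact EC.Multiplicative.InH.one
    have hpow : A.valuation (x - N.r) ^ j = A.valuation (x' - N.r) ^ i := by
      refine (pow_left_inj₀ zero_le zero_le hp.ne_zero).mp ?_
      rw [← pow_mul, ← pow_mul, mul_comm j p, mul_comm i p, pow_mul, pow_mul, hi, hj, ← pow_mul,
        ← pow_mul, mul_comm]
    have hcls : j • N.cls (A.valuation (x - N.r) ^ 2) = i • N.cls (A.valuation (x' - N.r) ^ 2) := by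
      rw [← N.cls_pow hvP, ← N.cls_pow hvQ, ← pow_mul, ← pow_mul, mul_comm 2 j, mul_comm 2 i,
        pow_mul, pow_mul, hpow]
    have hi' : ¬ p ∣ i := fun hd => by have := Nat.le_of_dvd hi0 hd; omega
    have hj' : ¬ p ∣ j := fun hd => by have := Nat.le_of_dvd hj0 hd; omega
    have key : ∀ X : PointQBar W, N.comp X = 0 → InE0 A (redCurve W A) X :=
      fun X => (N.comp_eq_zero_iff X).mp
    have htor : ∀ m n : ℕ, p • (m • (Affine.Point.some x y hn : PointQBar W) +
        n • (Affine.Point.some x' y' hn' : PointQBar W)) = 0 := by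
      intro m n
      rw [nsmul_add, ← mul_nsmul, mul_comm, mul_nsmul, hP, ← mul_nsmul, mul_comm, mul_nsmul, hQ,
        nsmul_zero, nsmul_zero, add_zero]
    have hne : ∀ n : ℕ, j • (Affine.Point.some x y hn : PointQBar W) +
        n • (Affine.Point.some x' y' hn' : PointQBar W) ≠ 0 := by
      intro n h0
      have e2 : (n * (p - 1)) • (Affine.Point.some x' y' hn' : PointQBar W) =
          j • (Affine.Point.some x y hn : PointQBar W) := by
        rw [eq_neg_of_add_eq_zero_left h0, eq_neg_iff_add_eq_zero, ← add_nsmul,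
          ← Nat.mul_succ, Nat.succ_eq_add_one, Nat.sub_add_cancel hp.one_lt.le, mul_comm,
          mul_nsmul, hQ, nsmul_zero]
      exact hj' (hind _ _ e2.symm).1
    have hadd : ∀ n : ℕ, N.comp (j • (Affine.Point.some x y hn : PointQBar W) +
        n • (Affine.Point.some x' y' hn' : PointQBar W)) =
        j • N.comp (Affine.Point.some x y hn) + n • N.comp (Affine.Point.some x' y' hn') := by
      intro n
      rw [← N.compHom_apply, map_add, map_nsmul, map_nsmul, N.compHom_apply, N.compHom_apply]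
    have hQp : (i * (p - 1)) • N.comp (Affine.Point.some x' y' hn') =
        -(i • N.comp (Affine.Point.some x' y' hn')) := by
      rw [eq_neg_iff_add_eq_zero, ← add_nsmul, ← Nat.mul_succ, Nat.succ_eq_add_one,
        Nat.sub_add_cancel hp.one_lt.le, mul_comm, mul_nsmul, ← N.compHom_apply, ← map_nsmul, hQ,
        map_zero, nsmul_zero]
    rcases hcompP with e | e <;> rcases hcompQ with e' | e'
    · exact ⟨_, hne (i * (p - 1)), htor _ _, key _ (by
        rw [hadd, hQp, e, e', hcls, add_neg_cancel])⟩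
    · exact ⟨_, hne i, htor _ _, key _ (by rw [hadd, e, e', neg_nsmul, hcls, add_neg_cancel])⟩
    · exact ⟨_, hne i, htor _ _, key _ (by rw [hadd, e, e', neg_nsmul, hcls, neg_add_cancel])⟩
    · exact ⟨_, hne (i * (p - 1)), htor _ _, key _ (by
        rw [hadd, hQp, e, e', neg_nsmul, neg_nsmul, neg_neg, hcls, neg_add_cancel])⟩

/-- At a small prime of multiplicative reduction the line lies in the identity component. -/
theorem inE0_small (h : IsCyclotomicLine W p T) (hΔ0 : W.Δ ≠ 0) (hA : A.LiesOverPrime q)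
    (hq : q.Prime) (hqp : q ≠ p) (hsmall : q ^ 2 + 1 < p) (hΔ : (q : ℤ) ∣ W.Δ)
    (hc₄ : ¬ (q : ℤ) ∣ W.c₄) {S : PointQBar W} (hS : p • S = 0)
    (hind : ∀ i j : ℕ, i • T = j • S → p ∣ i ∧ p ∣ j) :
    InE0 A (redCurve W A) T := by
  classical
  have hp : p.Prime := Fact.out
  by_contra hT
  obtain ⟨R, hR0, hpR, hRE⟩ := exists_inE0_torsion hA hq hΔ0 hΔ hc₄ (by
    have := hq.two_le; nlinarith) h.nsmul_eq hS hind
  obtain ⟨σ, hσ⟩ := exists_isFrobeniusAt hA hq
  have hr := reducesTo_qbar (W := W) A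
  obtain ⟨hs, hf⟩ := res_frobenius hσ
  obtain ⟨k, hk⟩ := h.cofix σ R hpR
  have hkE : k • T ∈ hr.E0 := by
    have h1 : σ • R ∈ hr.E0 := hr.mem_E0.mpr
      ((hr.inE0_smul_iff (φ := (residualFrobenius hA hq).toRingHom) hs hf).mpr hRE)
    rw [hk] at h1
    simpa using hr.E0.sub_mem h1 (hr.mem_E0.mpr hRE)
  have hk0 : (k : ZMod p) = 0 := by
    by_contra hk0
    refine hT (hr.mem_E0.mp ?_)
    have := hr.E0.nsmul_mem hkE ((k : ZMod p)⁻¹).val
    rw [← mul_nsmul] at this
    rwa [eq_one_nsmul (p := p) h.nsmul_eq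
      (by rw [Nat.cast_mul, ZMod.natCast_zmod_val, mul_inv_cancel₀ hk0])] at this
  refine smul_ne_self_of_small hA hq hqp hsmall hσ hR0 hpR hRE ?_
  rw [hk, h.nsmul_eq_zero_iff.mpr ((ZMod.natCast_eq_zero_iff k p).mp hk0), add_zero]

end Fermat.Agent.Mazur.Large
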