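import Fermat.Agent.Mazur.Large.Local
import Fermat.Agent.Mazur.Large.Endgame
import Fermat.Agent.EC.Multiplicative.Frey
import Fermat.Agent.EC.FrobTrace.Main

/-!
# No cofixed line for `p ≥ 17`, given Mazur's three-place lemma for a stable subgroup
-/

set_option autoImplicit false

namespace Fermat.Agent.Mazur.Large

open WeierstrassCurve Fermat.Agent.Arith Fermat.Agent.EC.AtP Fermat.Agent.EC.Reduction
open scoped WeierstrassCurve.Affine Pointwise

/-- Mazur's three-place lemma for a Galois-stable subgroup of prime order: if it lies in the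
identity component at the multiplicative places `2` and `3`, it does so at every multiplicative
place away from `p`. -/
def ThreePlaceLemma : Prop :=
  ∀ (p : ℕ), p.Prime → p ∉ ({2, 3, 5, 7, 13} : Finset ℕ) →
  ∀ (W : WeierstrassCurve ℤ), W.Δ ≠ 0 →
  ∀ (T : ((W.map (Int.castRingHom ℚ))⁄(AlgebraicClosure ℚ)).Point), addOrderOf T = p →
  (∀ σ : AlgebraicClosure ℚ ≃ₐ[ℚ] AlgebraicClosure ℚ, ∃ k : ℕ, σ • T = k • T) →
  (2 : ℤ) ∣ W.Δ → ¬ (2 : ℤ) ∣ W.c₄ →
  (∀ A : ValuationSubring (AlgebraicClosure ℚ), A.LiesOverPrime 2 → W.InZeroComponentAt A T) →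
  (3 : ℤ) ∣ W.Δ → ¬ (3 : ℤ) ∣ W.c₄ →
  (∀ A : ValuationSubring (AlgebraicClosure ℚ), A.LiesOverPrime 3 → W.InZeroComponentAt A T) →
  ∀ {ℓ : ℕ}, ℓ.Prime → ℓ ≠ p → (ℓ : ℤ) ∣ W.Δ → ¬ (ℓ : ℤ) ∣ W.c₄ →
  ∀ A : ValuationSubring (AlgebraicClosure ℚ), A.LiesOverPrime ℓ → W.InZeroComponentAt A T

variable {P : FreyPackage} [Fact (Nat.Prime P.p)] {T : PointQBar P.freyCurveInt}

/-- A second, independent point of order `p`. -/
theorem exists_independent (hT : IsCyclotomicLine P.freyCurveInt P.p T) :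
    ∃ S : PointQBar P.freyCurveInt, P.p • S = 0 ∧
      ∀ i j : ℕ, i • T = j • S → P.p ∣ i ∧ P.p ∣ j := by
  classical
  have hp := P.pp
  have hcard := EC.Torsion.natCard_torsionBy_algebraicClosureRat
    (P.freyCurveInt.map (Int.castRingHom ℚ)) hp.ne_zero
  have : Finite (TorsQBar P.freyCurveInt P.p) :=
    Nat.finite_of_card_ne_zero (hcard.trans_ne (pow_ne_zero 2 hp.ne_zero))
  by_contra hall
  simp only [not_exists, not_and] at hall
  have hsub : ∀ S : TorsQBar P.freyCurveInt P.p, ∃ m : Fin P.p,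
      (S : PointQBar P.freyCurveInt) = m.1 • T := by
    intro S
    have hS := nsmul_coe_torsQBar (W := P.freyCurveInt) S
    by_contra hne
    simp only [not_exists] at hne
    refine hall _ hS fun i j hij => ?_
    by_cases hj : P.p ∣ j
    · obtain ⟨d, rfl⟩ := hj
      rw [mul_nsmul, hS, nsmul_zero] at hij
      exact ⟨hT.nsmul_eq_zero_iff.mp hij, dvd_mul_right _ _⟩
    · exfalso
      have hj0 : (j : ZMod P.p) ≠ 0 := fun h0 => hj ((ZMod.natCast_eq_zero_iff _ _).mp h0)
      set u : ℕ := ((j : ZMod P.p)⁻¹).val with hu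
      have h1 : (j * u) • (S : PointQBar P.freyCurveInt) = (S : PointQBar P.freyCurveInt) :=
        eq_one_nsmul (p := P.p) hS
          (by rw [Nat.cast_mul, hu, ZMod.natCast_zmod_val, mul_inv_cancel₀ hj0])
      refine hne ⟨(i * u) % P.p, Nat.mod_lt _ hp.pos⟩ ?_
      rw [← nsmul_eq_mod_nsmul _ hT.nsmul_eq, mul_nsmul, hij, ← mul_nsmul, h1]
  choose f hf using hsub
  have hinj : Function.Injective f := fun S S' h => Subtype.ext (by rw [hf S, hf S', h])
  have := Nat.card_le_card_of_injective f hinj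
  rw [hcard, Nat.card_fin] at this
  have := hp.two_le
  nlinarith

/-- The Frey curve of a cofixed line has bad reduction at `3`. -/
theorem three_dvd_abc (hT : IsCyclotomicLine P.freyCurveInt P.p T) (hp : 17 ≤ P.p) :
    (3 : ℤ) ∣ P.a * P.b * P.c := by
  classical
  by_contra h3
  have : Fact (Nat.Prime 3) := ⟨Nat.prime_three⟩
  have hgood : P.freyCurveInt.IsGoodPrimeFor 3 := Frey.not_dvd_Δ P Nat.prime_three h3
  obtain ⟨A, hA⟩ := exists_liesOverPrime Nat.prime_three
  obtain ⟨σ, hσ⟩ := exists_isFrobeniusAt hA Nat.prime_three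
  obtain ⟨S, hS, hind⟩ := exists_independent hT
  have hS' : S ∈ Submodule.torsionBy ℤ (PointQBar P.freyCurveInt) P.p := by
    rw [Submodule.mem_torsionBy_iff, natCast_zsmul]; exact hS
  have h3p : (3 : ℕ) ≠ P.p := by omega
  have hquad := congrArg Subtype.val
    (EC.FrobTrace.frobenius_quadratic P.freyCurveInt P.pp Nat.prime_three hgood h3p hA hσ ⟨S, hS'⟩)
  obtain ⟨k, hk⟩ := hT.cofix σ S hS
  have hσT : σ • T = 3 • T := by
    rw [hT.smul_eq, cyc_frobenius P.p hA Nat.prime_three hσ h3p, ZMod.val_natCast,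
      Nat.mod_eq_of_lt (by omega)]
  have hσσ : σ • (σ • S) = S + k • T + k • (3 • T) := by
    have hadd : σ • (S + k • T) = σ • S + σ • (k • T) :=
      map_add (Affine.Point.map (σ : GQ).toAlgHom) S (k • T)
    rw [hk, hadd, nsmul_smul, hσT, hk]
  have hzero : ((4 : ℤ) - P.freyCurveInt.apOfModel 3) • (S + k • T) = 0 := by
    have e : σ • (σ • S) - P.freyCurveInt.apOfModel 3 • (σ • S) + ((3 : ℕ) : ℤ) • S = 0 := hquad
    rw [hσσ, hk] at e
    rw [← e]
    simp only [← natCast_zsmul, smul_smul]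
    module
  have hU : S + k • T ≠ 0 := by
    intro h0
    have hST : (k * (P.p - 1)) • T = 1 • S := by
      rw [one_nsmul, eq_neg_of_add_eq_zero_left h0, eq_neg_iff_add_eq_zero, ← add_nsmul,
        ← Nat.mul_succ, Nat.succ_eq_add_one, Nat.sub_add_cancel P.pp.one_lt.le, mul_comm,
        mul_nsmul, hT.nsmul_eq, nsmul_zero]
    exact P.pp.one_lt.ne' (Nat.dvd_one.mp (hind _ _ hST).2)
  have hpU : P.p • (S + k • T) = 0 := by rw [nsmul_add, hS, hT.nsmul_nsmul_eq, add_zero]
  have hdvd : (P.p : ℤ) ∣ (4 - P.freyCurveInt.apOfModel 3) := by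
    rw [← addOrderOf_eq_prime hpU hU]
    exact addOrderOf_dvd_iff_zsmul_eq_zero.mpr hzero
  have hap : (4 : ℤ) - P.freyCurveInt.apOfModel 3 = ((P.freyCurveInt.reductionMod 3).card : ℤ) := by
    rw [WeierstrassCurve.apOfModel, WeierstrassCurve.traceOfFrobenius, Nat.card_zmod]; ring
  rw [hap, Int.natCast_dvd_natCast] at hdvd
  let g : (P.freyCurveInt.reductionMod 3).toAffine.Point → Option (ZMod 3 × ZMod 3) := fun R =>
    match R with
    | .zero => none
    | .some x y _ => Option.some (x, y)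
  have hg : Function.Injective g := by
    rintro (_ | ⟨x, y, hxy⟩) (_ | ⟨x', y', hxy'⟩) h <;> simp [g] at h ⊢
    exact h
  have : Finite (P.freyCurveInt.reductionMod 3).toAffine.Point := Finite.of_injective g hg
  have hle : (P.freyCurveInt.reductionMod 3).card ≤ 10 := by
    refine (Nat.card_le_card_of_injective g hg).trans ?_
    simp [Nat.card_eq_fintype_card]
  have hpos : 0 < (P.freyCurveInt.reductionMod 3).card :=
    Nat.card_pos (α := (P.freyCurveInt.reductionMod 3).toAffine.Point)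
  have := Nat.le_of_dvd hpos hdvd
  omega

/-- `2` divides the discriminant of the Frey curve. -/
theorem two_dvd_Δ (P : FreyPackage) : (2 : ℤ) ∣ P.freyCurveInt.Δ := by
  have h := Frey.Δ_eq P
  have h9 : (2 : ℤ) ^ 9 ∣ (P.a * P.b * P.c) ^ (2 * P.p) :=
    (pow_dvd_pow_of_dvd P.two_dvd_abc 9).trans (pow_dvd_pow _ (by have := P.hp5; omega))
  rw [← h, show (2 : ℤ) ^ 9 = 2 ^ 8 * 2 by norm_num] at h9
  exact Int.dvd_of_mul_dvd_mul_left (by norm_num) h9

/-- The Frey curve has no cofixed line for `p ≥ 17`, given the three-place lemma. -/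
theorem not_hasGaloisStableCofixedLine (hcore : ThreePlaceLemma) (P : FreyPackage)
    (hp : 17 ≤ P.p) :
    ¬ Affine.Point.HasGaloisStableCofixedLine (K := AlgebraicClosure ℚ) ℚ P.freyCurve P.p := by
  classical
  have : Fact (Nat.Prime P.p) := ⟨P.pp⟩
  rw [Frey.freyCurve_eq_map]
  intro hline
  have hΔ0 := Frey.Δ_ne_zero P
  obtain ⟨T, hT⟩ := exists_isCyclotomicLine P.freyCurveInt P.p hΔ0 hline
  obtain ⟨S, hS, hind⟩ := exists_independent hT
  have h2 : ((2 : ℕ) : ℤ) ∣ P.a * P.b * P.c := P.two_dvd_abc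
  have h3 : ((3 : ℕ) : ℤ) ∣ P.a * P.b * P.c := three_dvd_abc hT hp
  have h3Δ := Frey.dvd_Δ P Nat.prime_three (by norm_num) h3
  have hsmall2 : ∀ A : ValuationSubring QBar, A.LiesOverPrime 2 →
      InE0 A (redCurve P.freyCurveInt A) T := fun A hA =>
    inE0_small hT hΔ0 hA Nat.prime_two (by omega) (by norm_num; omega) (two_dvd_Δ P)
      (Frey.not_dvd_c₄ P Nat.prime_two h2) hS hind
  have hsmall3 : ∀ A : ValuationSubring QBar, A.LiesOverPrime 3 →
      InE0 A (redCurve P.freyCurveInt A) T := fun A hA =>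
    inE0_small hT hΔ0 hA Nat.prime_three (by omega) (by norm_num; omega) h3Δ
      (Frey.not_dvd_c₄ P Nat.prime_three h3) hS hind
  refine false_of_inE0_everywhere hT fun q hq A hA => ?_
  by_cases hqp : q = P.p
  · subst hqp
    exact inE0_at_p hT (by omega) (frey_inertiaPreservesComponent P) hA
  by_cases hqΔ : (q : ℤ) ∣ P.freyCurveInt.Δ
  · have hqabc : (q : ℤ) ∣ P.a * P.b * P.c := by
      by_contra hn
      exact Frey.not_dvd_Δ P hq hn hqΔ
    refine (inZeroComponentAt_iff P.freyCurveInt T).mp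
      (hcore P.p P.pp ?_ P.freyCurveInt hΔ0 T (addOrderOf_eq_prime hT.nsmul_eq hT.ne_zero)
        (fun σ => ⟨_, hT.smul_eq σ⟩) (two_dvd_Δ P) (Frey.not_dvd_c₄ P Nat.prime_two h2)
        (fun B hB => (inZeroComponentAt_iff P.freyCurveInt T).mpr (hsmall2 B hB))
        h3Δ (Frey.not_dvd_c₄ P Nat.prime_three h3)
        (fun B hB => (inZeroComponentAt_iff P.freyCurveInt T).mpr (hsmall3 B hB))
        hq hqp hqΔ (Frey.not_dvd_c₄ P hq hqabc) A hA)
    simp only [Finset.mem_insert, Finset.mem_singleton]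
    omega
  · exact inE0_of_good hA hq hqΔ _

end Fermat.Agent.Mazur.Large
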